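/-
S56 design / Program G, block SEL (helper19), file 1: matrices over the dual numbers `k[ε]`.

For a group hom `R : G →* Matrix n n k[ε]` with reduction `Rbar = fst ∘ R`, the tangent cochain
`c σ = snd (R σ) * Rbar σ⁻¹` is a 1-cocycle for the adjoint action of `Rbar`; two such homs with the
same reduction whose cochains differ by the coboundary of `m` are conjugate by `1 + ε m`.
Mathlib only.
-/
import Mathlib

set_option autoImplicit false
set_option linter.unusedSectionVars false

namespace Fermat.Agent.TW.Sel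

open Matrix

variable {k : Type*} [CommRing k] {n : Type*} [Fintype n] [DecidableEq n]

/-- Entrywise first component (reduction mod `ε`) of a matrix over `k[ε]`. -/
def mfst (X : Matrix n n (DualNumber k)) : Matrix n n k := X.map TrivSqZeroExt.fst

/-- Entrywise second component (`ε`-part) of a matrix over `k[ε]`. -/
def msnd (X : Matrix n n (DualNumber k)) : Matrix n n k := X.map TrivSqZeroExt.snd

/-- The matrix `A + ε B` over `k[ε]`. -/
def mlift (A B : Matrix n n k) : Matrix n n (DualNumber k) :=
  Matrix.of fun i j => ((A i j, B i j) : DualNumber k)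

@[simp] theorem mfst_apply (X : Matrix n n (DualNumber k)) (i j : n) :
    mfst X i j = (X i j).fst := rfl

@[simp] theorem msnd_apply (X : Matrix n n (DualNumber k)) (i j : n) :
    msnd X i j = (X i j).snd := rfl

@[simp] theorem mfst_mlift (A B : Matrix n n k) : mfst (mlift A B) = A := rfl

@[simp] theorem msnd_mlift (A B : Matrix n n k) : msnd (mlift A B) = B := rfl

theorem dualMat_ext {X Y : Matrix n n (DualNumber k)} (h1 : mfst X = mfst Y)
    (h2 : msnd X = msnd Y) : X = Y := by
  ext i j
  · exact congrFun (congrFun h1 i) j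
  · exact congrFun (congrFun h2 i) j

theorem mfst_mul (X Y : Matrix n n (DualNumber k)) : mfst (X * Y) = mfst X * mfst Y := by
  ext i j
  simp only [mfst_apply, Matrix.mul_apply]
  rw [← TrivSqZeroExt.fstHom_apply k, map_sum]
  simp [TrivSqZeroExt.fst_mul]

theorem msnd_mul (X Y : Matrix n n (DualNumber k)) :
    msnd (X * Y) = mfst X * msnd Y + msnd X * mfst Y := by
  ext i j
  simp only [msnd_apply, Matrix.mul_apply, Matrix.add_apply, mfst_apply]
  have h : ∀ s : Finset n, (∑ l ∈ s, X i l * Y l j).snd
      = ∑ l ∈ s, ((X i l).fst * (Y l j).snd + (X i l).snd * (Y l j).fst) := by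
    intro s
    induction s using Finset.induction_on with
    | empty => simp
    | insert a s ha ih =>
      rw [Finset.sum_insert ha, Finset.sum_insert ha, TrivSqZeroExt.snd_add, ih]
      congr 1
  rw [h, Finset.sum_add_distrib]

@[simp] theorem mfst_one : mfst (1 : Matrix n n (DualNumber k)) = 1 := by
  ext i j
  by_cases h : i = j
  · subst h; simp
  · simp [h]

@[simp] theorem msnd_one : msnd (1 : Matrix n n (DualNumber k)) = 0 := by
  ext i j
  by_cases h : i = j
  · subst h; simp
  · simp [h]

/-- `(1 + ε m) (1 - ε m) = 1`. -/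
theorem mlift_one_mul_mlift_one_neg (m : Matrix n n k) :
    mlift (1 : Matrix n n k) m * mlift 1 (-m) = 1 := by
  apply dualMat_ext
  · rw [mfst_mul]; simp
  · rw [msnd_mul]; simp

theorem mlift_one_neg_mul_mlift_one (m : Matrix n n k) :
    mlift (1 : Matrix n n k) (-m) * mlift 1 m = 1 := by
  apply dualMat_ext
  · rw [mfst_mul]; simp
  · rw [msnd_mul]; simp

/-- The unit `1 + ε m` of the matrix ring over `k[ε]`. -/
def unitOfTangent (m : Matrix n n k) : (Matrix n n (DualNumber k))ˣ :=
  ⟨mlift 1 m, mlift 1 (-m), mlift_one_mul_mlift_one_neg m, mlift_one_neg_mul_mlift_one m⟩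

@[simp] theorem val_unitOfTangent (m : Matrix n n k) :
    ((unitOfTangent m : (Matrix n n (DualNumber k))ˣ) : Matrix n n (DualNumber k)) = mlift 1 m :=
  rfl

@[simp] theorem val_inv_unitOfTangent (m : Matrix n n k) :
    (((unitOfTangent m)⁻¹ : (Matrix n n (DualNumber k))ˣ) : Matrix n n (DualNumber k))
      = mlift 1 (-m) := rfl

section Hom

variable {G : Type*} [Group G]

/-- The reduction mod `ε` of a matrix-valued hom over `k[ε]`. -/
def redHom (R : G →* Matrix n n (DualNumber k)) : G →* Matrix n n k where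
  toFun σ := mfst (R σ)
  map_one' := by rw [map_one, mfst_one]
  map_mul' σ τ := by rw [map_mul, mfst_mul]

@[simp] theorem redHom_apply (R : G →* Matrix n n (DualNumber k)) (σ : G) :
    redHom R σ = mfst (R σ) := rfl

theorem hom_mul_inv {A : Type*} [Monoid A] (f : G →* A) (σ : G) : f σ * f σ⁻¹ = 1 := by
  rw [← map_mul, mul_inv_cancel, map_one]

theorem hom_inv_mul {A : Type*} [Monoid A] (f : G →* A) (σ : G) : f σ⁻¹ * f σ = 1 := by
  rw [← map_mul, inv_mul_cancel, map_one]

/-- The tangent cochain of `R`: `c σ = snd (R σ) * Rbar σ⁻¹`, so that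
`R σ = (1 + ε c σ) * Rbar σ`. -/
def tanCochain (R : G →* Matrix n n (DualNumber k)) (σ : G) : Matrix n n k :=
  msnd (R σ) * redHom R σ⁻¹

theorem msnd_eq_tanCochain_mul (R : G →* Matrix n n (DualNumber k)) (σ : G) :
    msnd (R σ) = tanCochain R σ * redHom R σ := by
  rw [tanCochain, mul_assoc, hom_inv_mul, mul_one]

/-- The cocycle identity for the adjoint action of the reduction. -/
theorem tanCochain_mul (R : G →* Matrix n n (DualNumber k)) (σ τ : G) :
    tanCochain R (σ * τ)
      = tanCochain R σ + redHom R σ * tanCochain R τ * redHom R σ⁻¹ := by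
  have h1 : redHom R (σ * τ)⁻¹ = redHom R τ⁻¹ * redHom R σ⁻¹ := by
    rw [_root_.mul_inv_rev, map_mul]
  rw [tanCochain, map_mul, msnd_mul, h1, add_mul, add_comm]
  congr 1
  · rw [← redHom_apply, mul_assoc, ← mul_assoc (redHom R τ), hom_mul_inv, one_mul]
    rfl
  · rw [tanCochain, ← redHom_apply]
    simp only [mul_assoc]

/-- If two homs have the same reduction and their tangent cochains differ by the coboundary of
`m`, they are conjugate by `1 + ε m`. -/
theorem conj_of_tanCochain_sub {R R' : G →* Matrix n n (DualNumber k)}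
    (hred : redHom R' = redHom R) (m : Matrix n n k)
    (h : ∀ σ, tanCochain R' σ = tanCochain R σ + (m - redHom R σ * m * redHom R σ⁻¹)) (σ : G) :
    R' σ = mlift 1 m * R σ * mlift 1 (-m) := by
  apply dualMat_ext
  · rw [mfst_mul, mfst_mul, mfst_mlift, mfst_mlift, one_mul, mul_one, ← redHom_apply,
      ← redHom_apply, hred]
  · rw [msnd_mul, mfst_mul, msnd_mul, mfst_mlift, mfst_mlift, msnd_mlift, msnd_mlift, one_mul,
      one_mul, mul_one, msnd_eq_tanCochain_mul R', msnd_eq_tanCochain_mul R, h σ, hred,
      ← redHom_apply]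
    rw [add_mul, sub_mul, mul_assoc (redHom R σ * m), hom_inv_mul, mul_one]
    simp only [mul_neg]
    abel

/-- Conversely: conjugating by `1 + ε m` changes the tangent cochain by the coboundary of `m`. -/
theorem tanCochain_conj {R R' : G →* Matrix n n (DualNumber k)} (m : Matrix n n k)
    (h : ∀ σ, R' σ = mlift 1 m * R σ * mlift 1 (-m)) (σ : G) :
    tanCochain R' σ = tanCochain R σ + (m - redHom R σ * m * redHom R σ⁻¹) := by
  have hred : ∀ τ, redHom R' τ = redHom R τ := by
    intro τ
    rw [redHom_apply, h τ, mfst_mul, mfst_mul, mfst_mlift, mfst_mlift, one_mul, mul_one]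
    rfl
  rw [tanCochain, hred, h σ, msnd_mul, mfst_mul, msnd_mul, mfst_mlift, mfst_mlift, msnd_mlift,
    msnd_mlift, one_mul, one_mul, mul_one, ← redHom_apply, msnd_eq_tanCochain_mul R]
  rw [add_mul, add_mul, mul_assoc (tanCochain R σ), hom_mul_inv, mul_one, mul_assoc m,
    hom_mul_inv, mul_one]
  simp only [mul_neg, neg_mul]
  abel

end Hom

section Det

variable {G : Type*} [Group G]

/-- For `2 × 2` matrices: if `det (R σ)` has no `ε`-part, the tangent cochain has trace zero. -/
theorem trace_tanCochain_eq_zero (R : G →* Matrix (Fin 2) (Fin 2) (DualNumber k)) (σ : G)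
    (hdet : ((R σ).det).snd = 0) : (tanCochain R σ).trace = 0 := by
  -- `snd det (A + εB) = tr (adj A * B)` and `Rbar σ⁻¹ = adj(A) / det A`
  set A := redHom R σ with hA
  set Ai := redHom R σ⁻¹ with hAi
  set B := msnd (R σ) with hB
  have hAAi : A * Ai = 1 := hom_mul_inv (redHom R) σ
  have hAiA : Ai * A = 1 := hom_inv_mul (redHom R) σ
  have hdetA : A.det * Ai.det = 1 := by rw [← Matrix.det_mul, hAAi, Matrix.det_one]
  have hadj : Ai = Ai.det • A.adjugate := by
    have h1 : A.adjugate = A.adjugate * (A * Ai) := by rw [hAAi, mul_one]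
    rw [← mul_assoc, Matrix.adjugate_mul, Matrix.smul_mul, one_mul] at h1
    rw [h1, smul_smul, mul_comm, hdetA, one_smul]
  have hsnd : ((R σ).det).snd = (A.adjugate * B).trace := by
    rw [Matrix.det_fin_two, Matrix.trace_fin_two, Matrix.adjugate_fin_two]
    simp only [TrivSqZeroExt.snd_sub, TrivSqZeroExt.snd_mul, Matrix.mul_apply, Fin.sum_univ_two,
      Matrix.of_apply, Matrix.cons_val', Matrix.cons_val_zero, Matrix.cons_val_one,
      Matrix.empty_val', Matrix.cons_val_fin_one, hA, hB, redHom_apply, mfst_apply, msnd_apply,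
      smul_eq_mul, MulOpposite.smul_eq_mul_unop, MulOpposite.unop_op]
    ring
  show (B * Ai).trace = 0
  rw [Matrix.trace_mul_comm, hadj, Matrix.smul_mul, Matrix.trace_smul, ← hsnd, hdet, smul_zero]

end Det

end Fermat.Agent.TW.Sel
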