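/-
S56 design / Program G, block SEL (helper19), file 2: the adjoint representation `ad⁰` of a
`2 × 2` matrix-valued hom `rb : G →* M2 k` as a `Rep k G` on the trace-zero matrices, the tangent
cocycle / tangent class in Mathlib's `groupCohomology.H1`, and
"equal tangent classes ⇒ conjugate by `1 + ε m`".
-/
import Mathlib
import Fermat.Agent.TW.Sel.DualMat

set_option autoImplicit false
set_option linter.unusedSectionVars false

universe u

namespace Fermat.Agent.TW.Sel

open Matrix groupCohomology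

variable {k : Type u} [CommRing k] {G : Type u} [Group G]

/-- The adjoint action of `rb` on all `n × n` matrices: `X ↦ rb σ * X * rb σ⁻¹`. -/
def matAdRepn {n : Type*} [Fintype n] [DecidableEq n] (rb : G →* Matrix n n k) :
    Representation k G (Matrix n n k) where
  toFun σ := (LinearMap.mulLeft k (rb σ)).comp (LinearMap.mulRight k (rb σ⁻¹))
  map_one' := by
    ext X : 1
    simp
  map_mul' σ τ := by
    ext X : 1
    simp [mul_assoc, _root_.mul_inv_rev]

@[simp] theorem matAdRepn_apply {n : Type*} [Fintype n] [DecidableEq n] (rb : G →* Matrix n n k)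
    (σ : G) (X : Matrix n n k) : matAdRepn rb σ X = rb σ * X * rb σ⁻¹ := by
  simp [matAdRepn, mul_assoc]

/-- Trace-zero `2 × 2` matrices. -/
def sl2 (k : Type u) [CommRing k] : Submodule k (Matrix (Fin 2) (Fin 2) k) :=
  LinearMap.ker (Matrix.traceLinearMap (Fin 2) k k)

theorem mem_sl2 {X : Matrix (Fin 2) (Fin 2) k} : X ∈ sl2 k ↔ X.trace = 0 := by
  rw [sl2, LinearMap.mem_ker, Matrix.traceLinearMap_apply]

theorem sl2_le_comap (rb : G →* Matrix (Fin 2) (Fin 2) k) (σ : G) :
    sl2 k ≤ (sl2 k).comap (matAdRepn rb σ) := by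
  intro X hX
  rw [Submodule.mem_comap, mem_sl2, matAdRepn_apply, Matrix.trace_mul_comm, ← mul_assoc,
    hom_inv_mul, one_mul]
  exact mem_sl2.1 hX

/-- The adjoint action on trace-zero matrices. -/
def matAd0Repn (rb : G →* Matrix (Fin 2) (Fin 2) k) : Representation k G (sl2 k) :=
  (matAdRepn rb).subrepresentation (sl2 k) (sl2_le_comap rb)

@[simp] theorem coe_matAd0Repn_apply (rb : G →* Matrix (Fin 2) (Fin 2) k) (σ : G) (X : sl2 k) :
    ((matAd0Repn rb σ X : sl2 k) : Matrix (Fin 2) (Fin 2) k) = rb σ * (X : Matrix _ _ k) * rb σ⁻¹ := by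
  simp [matAd0Repn]

/-- `ad⁰ rb` as an object of `Rep k G`. -/
noncomputable abbrev matAd0 (rb : G →* Matrix (Fin 2) (Fin 2) k) : Rep k G := Rep.of (matAd0Repn rb)

section Tangent

variable (rb : G →* Matrix (Fin 2) (Fin 2) k)

/-- A lift of `rb` to the dual numbers with `ε`-free determinant. -/
structure TanLift where
  /-- the lift -/
  R : G →* Matrix (Fin 2) (Fin 2) (DualNumber k)
  red : redHom R = rb
  det_snd : ∀ σ, ((R σ).det).snd = 0

variable {rb}

/-- The tangent cochain of a lift, as a function to the trace-zero matrices. -/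
def TanLift.cochain (L : TanLift rb) (σ : G) : sl2 k :=
  ⟨tanCochain L.R σ, mem_sl2.2 (trace_tanCochain_eq_zero L.R σ (L.det_snd σ))⟩

@[simp] theorem TanLift.coe_cochain (L : TanLift rb) (σ : G) :
    ((L.cochain σ : sl2 k) : Matrix (Fin 2) (Fin 2) k) = tanCochain L.R σ := rfl

theorem TanLift.cochain_mem_cocycles₁ (L : TanLift rb) :
    (fun σ => (L.cochain σ : (matAd0 rb))) ∈ cocycles₁ (matAd0 rb) := by
  rw [mem_cocycles₁_iff]
  intro σ τ
  apply Subtype.ext
  show tanCochain L.R (σ * τ) = ((matAd0Repn rb σ (L.cochain τ) + L.cochain σ : sl2 k) : Matrix _ _ k)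
  rw [Submodule.coe_add, coe_matAd0Repn_apply, TanLift.coe_cochain, TanLift.coe_cochain,
    tanCochain_mul, L.red, add_comm]

/-- The tangent cocycle of a lift. -/
def TanLift.cocycle (L : TanLift rb) : cocycles₁ (matAd0 rb) :=
  ⟨fun σ => (L.cochain σ : (matAd0 rb)), L.cochain_mem_cocycles₁⟩

/-- The tangent class of a lift in `H¹(G, ad⁰ rb)`. -/
noncomputable def TanLift.tanClass (L : TanLift rb) : H1 (matAd0 rb) := H1π (matAd0 rb) L.cocycle

/-- **Equal tangent classes ⇒ conjugate.** -/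
theorem TanLift.exists_conj_of_tanClass_eq {L L' : TanLift rb} (h : L'.tanClass = L.tanClass) :
    ∃ m : Matrix (Fin 2) (Fin 2) k, ∀ σ, L'.R σ = mlift 1 m * L.R σ * mlift 1 (-m) := by
  rw [TanLift.tanClass, TanLift.tanClass, H1π_eq_iff] at h
  obtain ⟨m, hm⟩ := h
  have hred : redHom L'.R = redHom L.R := by rw [L'.red, L.red]
  set m0 : Matrix (Fin 2) (Fin 2) k := (m : sl2 k).1 with hm0
  have key : ∀ τ, tanCochain L'.R τ
      = tanCochain L.R τ + (-m0 - redHom L.R τ * (-m0) * redHom L.R τ⁻¹) := by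
    intro τ
    have h1 := congrFun hm τ
    have h3 : ((d₀₁.{u, u} (matAd0 rb)).hom m) τ = (matAd0 rb).ρ τ m - m := rfl
    have h2 : (((matAd0 rb).ρ τ m - m : sl2 k) : Matrix (Fin 2) (Fin 2) k)
        = tanCochain L'.R τ - tanCochain L.R τ := by
      rw [← h3, h1]
      rfl
    rw [Submodule.coe_sub] at h2
    have h4 : (((matAd0 rb).ρ τ m : sl2 k) : Matrix (Fin 2) (Fin 2) k)
        = rb τ * m0 * rb τ⁻¹ := coe_matAd0Repn_apply rb τ m
    rw [h4] at h2
    rw [L.red]
    have h5 : tanCochain L'.R τ = tanCochain L.R τ + (rb τ * m0 * rb τ⁻¹ - m0) := by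
      rw [h2]; abel
    rw [h5]
    simp only [mul_neg, neg_mul]
    abel
  exact ⟨-m0, fun σ => conj_of_tanCochain_sub hred (-m0) key σ⟩

end Tangent

end Fermat.Agent.TW.Sel
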