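/-
S56 design / Program G, block SEL (helper19), file 3: from the Prelude's `GaloisRepAdic k[ε]`
to tangent lifts.

* `exists_matRep_lift` : a deformation `ρ` of `ρbar` to `k[ε]` (in the literal sense of
  `GaloisRep.TangentFinite`) has a matrix model whose reduction mod `ε` is EXACTLY a prescribed
  matrix form `rb₀` of `ρbar`;
* `det_snd_eq_zero` : `DetIsCyclotomic` over `k[ε]` forces `det` to have no `ε`-part;
* `isEquiv_of_tanClass_eq` : equal tangent classes ⇒ `IsEquiv`;
* `exists_kerField` : the kernel field of a hom trivial on an open subgroup and on the inertia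
  groups outside `T` is finite Galois and unramified outside `T`;
* `isLevelConstantS₁_cochain` : the tangent cochain is `T`-level-constant.
-/
import Mathlib
import Fermat.Agent.S53.MatModel
import Fermat.Agent.S55.TrivField
import Fermat.Agent.Pseudo.CycloPow
import Fermat.Prelude.Def_GaloisRep_LocalConditions
import Fermat.Prelude.Def_GroupCohomology_ContinuousUnramified
import Fermat.Agent.TW.Sel.MatAd0

set_option autoImplicit false
set_option linter.unusedSectionVars false
set_option linter.style.haveILetI false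

namespace Fermat.Agent.TW.Sel

open IsLocalRing Fermat.Agent.S53 groupCohomology

local notation "Qb" => AlgebraicClosure ℚ

variable {k : Type} [Field k]

/-- The ring hom `k → ResidueField k[ε]` whose `toAlgebra` is used in `GaloisRep.TangentFinite`. -/
noncomputable def resHom (k : Type) [Field k] : k →+* ResidueField (DualNumber k) :=
  (IsLocalRing.residue (DualNumber k)).comp (algebraMap k (DualNumber k))

theorem fst_eq_of_residue_eq {x : DualNumber k} {a : k}
    (h : IsLocalRing.residue (DualNumber k) x = resHom k a) : x.fst = a := by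
  have h1 : IsLocalRing.residue (DualNumber k) (x - algebraMap k (DualNumber k) a) = 0 := by
    rw [map_sub, h]
    simp [resHom]
  rw [IsLocalRing.residue_eq_zero_iff, IsLocalRing.mem_maximalIdeal, mem_nonunits_iff,
    TrivSqZeroExt.isUnit_iff_isUnit_fst] at h1
  have h2 : (x - algebraMap k (DualNumber k) a).fst = x.fst - a := by
    rw [TrivSqZeroExt.fst_sub]
    rfl
  rw [h2, isUnit_iff_ne_zero, not_not, sub_eq_zero] at h1
  exact h1

/-- **Frame lifting over the dual numbers**: a deformation of `ρbar` to `k[ε]` has a matrix model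
reducing exactly to the matrix form `rb₀` of `ρbar`. -/
theorem exists_matRep_lift (ρbar : ResidualGaloisRep k) (rb₀ : MatRep k)
    (hrb : rb₀.toResidual.IsEquiv ρbar) (ρ : GaloisRepAdic (DualNumber k))
    (hρ : ρ.residual.IsEquiv (ρbar.baseChangeAlong (resHom k))) :
    ∃ r : MatRep (DualNumber k), r.toAdic.IsEquiv ρ ∧ ∀ σ, mfst (r σ) = rb₀ σ := by
  obtain ⟨e0⟩ := hrb
  obtain ⟨e1⟩ := hρ
  have e2 : ResidualGaloisRep.Equiv (ρbar.baseChangeAlong (resHom k))
      (rb₀.toResidual.baseChangeAlong (resHom k)) :=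
    ResidualGaloisRep.Equiv.baseChangeAlong (resHom k) e0.symm
  have e3 := MatRep.resBaseChangeEquiv (resHom k) rb₀
  obtain ⟨r, hr, hres⟩ := MatRep.exists_lift_of_residual_isEquiv ρ
    (rb₀.map (resHom k) inferInstance) ⟨(e1.trans e2).trans e3⟩
  refine ⟨r, hr, fun σ => ?_⟩
  ext i j
  rw [mfst_apply]
  have h := congrFun (congrFun (congrArg (fun s : MatRep _ => s σ) hres) i) j
  exact fst_eq_of_residue_eq h

/-- Over `k[ε]` with `p = 0` in `k`, a cyclotomic determinant has no `ε`-part. -/
theorem det_snd_eq_zero {p : ℕ} [Fact p.Prime] (r : MatRep (DualNumber k))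
    (hdet : r.toAdic.DetIsCyclotomic p) (σ : GQ) : ((r σ).det).snd = 0 := by
  obtain ⟨hp, h⟩ := hdet
  have hpk : (p : k) = 0 := by
    rw [IsLocalRing.mem_maximalIdeal, mem_nonunits_iff, TrivSqZeroExt.isUnit_iff_isUnit_fst,
      isUnit_iff_ne_zero, not_not] at hp
    simpa using hp
  have hpA : ((p ^ 1 : ℕ) : DualNumber k) = 0 := by
    rw [pow_one]
    ext
    · simpa using hpk
    · simp
  haveI : NeZero (p ^ 1) := ⟨pow_ne_zero 1 (Fact.out : p.Prime).ne_zero⟩
  set a : ℕ := ((Fermat.Agent.Pseudo.Cyclo.cycloN (p ^ 1) σ : (ZMod (p ^ 1))ˣ) : ZMod (p ^ 1)).val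
  have h1 := h 1 σ a (fun μ hμ => Fermat.Agent.Pseudo.Cyclo.cycloN_spec (p ^ 1) σ hμ)
  rw [hpA, Ideal.span_singleton_eq_bot.mpr rfl, Ideal.mem_bot, sub_eq_zero] at h1
  have h2 : LinearMap.det (r.toAdic.ρ σ) = (r σ).det := LinearMap.det_toLin' (r σ)
  rw [← h2, h1]
  simp

/-- The tangent lift attached to a matrix model reducing to `rb₀` with cyclotomic determinant. -/
noncomputable def tanLiftOf {p : ℕ} [Fact p.Prime] (rb₀ : MatRep k) (r : MatRep (DualNumber k))
    (hred : ∀ σ, mfst (r σ) = rb₀ σ) (hdet : r.toAdic.DetIsCyclotomic p) : TanLift rb₀.toHom where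
  R := r.toHom
  red := MonoidHom.ext fun σ => hred σ
  det_snd := det_snd_eq_zero r hdet

/-- **Equal tangent classes ⇒ equivalent deformations.** -/
theorem isEquiv_of_tanClass_eq {rb₀ : MatRep k} {r r' : MatRep (DualNumber k)}
    (L L' : TanLift rb₀.toHom) (hL : L.R = r.toHom) (hL' : L'.R = r'.toHom)
    (h : L'.tanClass = L.tanClass) : r'.toAdic.IsEquiv r.toAdic := by
  obtain ⟨m, hm⟩ := TanLift.exists_conj_of_tanClass_eq h
  have hconj : r' = r.conj (unitOfTangent m)⁻¹ := by
    refine MatRep.ext fun σ => ?_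
    rw [MatRep.conj_apply, inv_inv, val_unitOfTangent, val_inv_unitOfTangent]
    have := hm σ
    rw [hL, hL'] at this
    exact this
  rw [hconj]
  exact MatRep.isEquiv_conj _ r

section KerField

local instance instIsAlgClosureQbSel : IsAlgClosure ℚ Qb := AlgebraicClosure.instIsAlgClosure ℚ
local instance instIsGaloisQbSel : IsGalois ℚ Qb :=
  Fermat.Agent.S54.FrobExists.isGalois_rat_algebraicClosure

/-- The kernel field of a hom which is trivial on an open subgroup and on the inertia groups
outside `T`: a finite Galois extension of `ℚ`, unramified outside `T`. -/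
theorem exists_kerField {X : Type*} [Monoid X] (f : GQ →* X) (T : Finset Nat.Primes)
    (hopen : ∃ F : IntermediateField ℚ Qb, FiniteDimensional ℚ F ∧ ∀ s ∈ F.fixingSubgroup, f s = 1)
    (hur : ∀ q : Nat.Primes, q ∉ T → ∀ A : ValuationSubring Qb,
      A.LiesOverPrime (q : ℕ) → ∀ g ∈ A.inertiaSubgroupIn ℚ, f g = 1) :
    ∃ F : IntermediateField ℚ Qb, F.IsUnramifiedOutside T ∧ IsGalois ℚ F ∧
      ∀ s ∈ F.fixingSubgroup, f s = 1 := by
  obtain ⟨F₁, hF₁fd, hF₁⟩ := hopen
  let N : Subgroup GQ := MonoidHom.ker f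
  have hN : ∀ s, s ∈ N ↔ f s = 1 := fun s => MonoidHom.mem_ker
  have hle : F₁.fixingSubgroup ≤ N := fun s hs => (hN s).2 (hF₁ s hs)
  have hopen : IsOpen (N : Set GQ) :=
    Subgroup.isOpen_mono hle ((InfiniteGalois.isOpen_iff_finite F₁).2 hF₁fd)
  let Nc : ClosedSubgroup GQ := ⟨N, Subgroup.isClosed_of_isOpen N hopen⟩
  let E : IntermediateField ℚ Qb := IntermediateField.fixedField N
  have hfix : E.fixingSubgroup = N := InfiniteGalois.fixingSubgroup_fixedField Nc
  have hfd : FiniteDimensional ℚ E := by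
    rw [← InfiniteGalois.isOpen_iff_finite, hfix]
    exact hopen
  have hgal : IsGalois ℚ E := by
    have h' : @IsGalois ℚ _ E _ E.algebra' := by
      rw [← InfiniteGalois.normal_iff_isGalois, hfix]
      exact MonoidHom.normal_ker _
    exact Fermat.Agent.S55.isGalois_of_normal E h'.to_normal
  refine ⟨E, ⟨hfd, fun q hq A hA σ hσ => ?_⟩, hgal, fun s hs => ?_⟩
  · rw [hfix]
    exact (hN σ).2 (hur q hq A hA σ hσ)
  · rw [hfix] at hs
    exact (hN s).1 hs

end KerField

/-- A matrix representation over `k[ε]` is trivial on an open subgroup (`𝔪² = 0`). -/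
theorem exists_open_ker (r : MatRep (DualNumber k)) :
    ∃ F : IntermediateField ℚ Qb, FiniteDimensional ℚ F ∧ ∀ s ∈ F.fixingSubgroup, r.toHom s = 1 := by
  obtain ⟨L, hL, h⟩ := r.cont 2
  refine ⟨L, hL, fun s hs => ?_⟩
  have hs' : ∀ x ∈ L, s x = x := fun x hx =>
    (IntermediateField.mem_fixingSubgroup_iff L s).1 hs x hx
  have h0 : maximalIdeal (DualNumber k) ^ 2 = ⊥ := by
    rw [eq_bot_iff]
    intro x hx
    rw [pow_two] at hx
    refine Submodule.mul_induction_on hx ?_ ?_
    · intro a ha b hb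
      rw [IsLocalRing.mem_maximalIdeal, mem_nonunits_iff, TrivSqZeroExt.isUnit_iff_isUnit_fst,
        isUnit_iff_ne_zero, not_not] at ha hb
      rw [Ideal.mem_bot]
      ext
      · simp [ha]
      · simp [ha, hb]
    · intro a b ha hb
      rw [Ideal.mem_bot] at ha hb ⊢
      rw [ha, hb, add_zero]
  refine Matrix.ext fun i j => ?_
  have := h s hs' i j
  rw [h0, Ideal.mem_bot, Matrix.sub_apply, sub_eq_zero] at this
  exact this

/-- **The tangent cochain is `T`-level-constant** when the lift is unramified outside `T`. -/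
theorem isLevelConstantS₁_cochain {rb₀ : MatRep k} (r : MatRep (DualNumber k))
    (L : TanLift rb₀.toHom) (hL : L.R = r.toHom) (T : Finset Nat.Primes)
    (hur : ∀ q : Nat.Primes, q ∉ T → ∀ A : ValuationSubring Qb,
      A.LiesOverPrime (q : ℕ) → ∀ g ∈ A.inertiaSubgroupIn ℚ, r.toHom g = 1) :
    IsLevelConstantS₁ T (fun σ => L.cochain σ) := by
  obtain ⟨F, hF, -, hF1⟩ := exists_kerField r.toHom T (exists_open_ker r) hur
  refine ⟨F, hF, fun g s hs => ?_⟩
  apply Subtype.ext
  show tanCochain L.R (g * s) = tanCochain L.R g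
  have h1 : L.R (g * s) = L.R g := by rw [map_mul, hL, hF1 s hs, mul_one]
  have h2 : redHom L.R (g * s)⁻¹ = redHom L.R g⁻¹ := by
    have : L.R (g * s)⁻¹ = L.R g⁻¹ := by
      rw [_root_.mul_inv_rev, map_mul, hL, hF1 s⁻¹ (inv_mem hs), one_mul]
    rw [redHom_apply, redHom_apply, this]
  rw [tanCochain, tanCochain, h1, h2]

end Fermat.Agent.TW.Sel
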