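/-
S56 design / Program G, block SEL (helper19), file 4: the tangent cocycle of a deformation of
`ρbar` to `k[ε]` as an LC `1`-cocycle of `globalLevel T` with values in helper23's shared
`Fermat.Agent.TW.Ad0.ad0Rep ρbar`, and "cohomologous ⇒ `IsEquiv`".
-/
import Mathlib
import Fermat.Agent.TW.Ad0
import Fermat.Agent.TW.Sel.Bridge
import Fermat.Agent.S55.LCBridgeGlobal

set_option autoImplicit false
set_option linter.unusedSectionVars false
set_option linter.style.haveILetI false

namespace Fermat.Agent.TW.Sel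

open IsLocalRing Fermat.Agent.S53 Fermat.Agent.CFT Fermat.Agent.TW.Ad0 groupCohomology

local notation "Qb" => AlgebraicClosure ℚ

variable {k : Type} [Field k] (ρbar : ResidualGaloisRep k)

/-- The fixed basis of the space of `ρbar`. -/
noncomputable def stdBasis : Module.Basis (Fin 2) k ρbar.V :=
  Module.finBasisOfFinrankEq k ρbar.V ρbar.finrank_eq

/-- The matrix form of `ρbar` in the fixed basis. -/
noncomputable def stdMat : MatRep k := MatRep.ofResidual ρbar (stdBasis ρbar)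

theorem stdMat_isEquiv : (stdMat ρbar).toResidual.IsEquiv ρbar :=
  MatRep.isEquiv_ofResidual ρbar (stdBasis ρbar)

theorem stdMat_apply (σ : GQ) :
    stdMat ρbar σ = LinearMap.toMatrix (stdBasis ρbar) (stdBasis ρbar) (ρbar.ρ σ) := rfl

theorem toLin_stdMat (σ : GQ) :
    Matrix.toLin (stdBasis ρbar) (stdBasis ρbar) (stdMat ρbar σ) = ρbar.ρ σ := by
  rw [stdMat_apply, Matrix.toLin_toMatrix]

theorem toLin_conj (X : Matrix (Fin 2) (Fin 2) k) (σ : GQ) :
    Matrix.toLin (stdBasis ρbar) (stdBasis ρbar) (stdMat ρbar σ * X * stdMat ρbar σ⁻¹)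
      = ρbar.ρ σ * Matrix.toLin (stdBasis ρbar) (stdBasis ρbar) X * ρbar.ρ σ⁻¹ := by
  rw [Matrix.toLin_mul (stdBasis ρbar) (stdBasis ρbar) (stdBasis ρbar),
    Matrix.toLin_mul (stdBasis ρbar) (stdBasis ρbar) (stdBasis ρbar), toLin_stdMat, toLin_stdMat]
  rfl

theorem trace_toLin (X : Matrix (Fin 2) (Fin 2) k) :
    LinearMap.trace k ρbar.V (Matrix.toLin (stdBasis ρbar) (stdBasis ρbar) X) = X.trace := by
  rw [LinearMap.trace_eq_matrix_trace k (stdBasis ρbar), LinearMap.toMatrix_toLin]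

/-- Elements of `sl ρbar` as elements of the carrier of `ad0Rep ρbar`. -/
def toAd0 (x : sl ρbar) : (ad0Rep ρbar) := x

/-- Elements of the carrier of `ad0Rep ρbar` as elements of `sl ρbar`. -/
def ofAd0 (x : (ad0Rep ρbar)) : sl ρbar := x

theorem ad0Rep_ρ_toAd0 (σ : GQ) (x : sl ρbar) :
    (ad0Rep ρbar).ρ σ (toAd0 ρbar x) = toAd0 ρbar (ad0Repn ρbar σ x) := rfl

variable {ρbar}

/-- The `End`-valued tangent cochain of a lift of the standard matrix form. -/
noncomputable def TanLift.endCochain (L : TanLift (stdMat ρbar).toHom) (σ : GQ) : sl ρbar :=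
  ⟨Matrix.toLin (stdBasis ρbar) (stdBasis ρbar) (tanCochain L.R σ), by
    rw [mem_sl_iff, trace_toLin]
    exact trace_tanCochain_eq_zero L.R σ (L.det_snd σ)⟩

theorem TanLift.coe_endCochain (L : TanLift (stdMat ρbar).toHom) (σ : GQ) :
    ((L.endCochain σ : sl ρbar) : Module.End k ρbar.V)
      = Matrix.toLin (stdBasis ρbar) (stdBasis ρbar) (tanCochain L.R σ) := rfl

/-- The tangent cochain with values in `ad0Rep ρbar`. -/
noncomputable def TanLift.adCochain (L : TanLift (stdMat ρbar).toHom) : GQ → (ad0Rep ρbar) :=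
  fun σ => toAd0 ρbar (L.endCochain σ)

theorem TanLift.adCochain_mem_cocycles₁ (L : TanLift (stdMat ρbar).toHom) :
    L.adCochain ∈ cocycles₁ (ad0Rep ρbar) := by
  rw [mem_cocycles₁_iff]
  intro σ τ
  show toAd0 ρbar (L.endCochain (σ * τ))
    = (ad0Rep ρbar).ρ σ (toAd0 ρbar (L.endCochain τ)) + toAd0 ρbar (L.endCochain σ)
  rw [ad0Rep_ρ_toAd0]
  show L.endCochain (σ * τ) = ad0Repn ρbar σ (L.endCochain τ) + L.endCochain σ
  apply Subtype.ext
  rw [Submodule.coe_add, coe_ad0Repn_apply, TanLift.coe_endCochain, TanLift.coe_endCochain,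
    TanLift.coe_endCochain, tanCochain_mul, L.red, map_add, toLin_conj, add_comm]

/-- **The tangent cocycle is an LC cocycle of `globalLevel T`** when the lift is unramified
outside `T`. -/
theorem TanLift.adCochain_mem_Z₁ (L : TanLift (stdMat ρbar).toHom) (r : MatRep (DualNumber k))
    (hL : L.R = r.toHom) (T : Finset Nat.Primes)
    (hur : ∀ q : Nat.Primes, q ∉ T → ∀ A : ValuationSubring Qb,
      A.LiesOverPrime (q : ℕ) → ∀ g ∈ A.inertiaSubgroupIn ℚ, r.toHom g = 1) :
    L.adCochain ∈ LC.Z₁ (Fermat.Agent.S55.globalLevel T) (ad0Rep ρbar) := by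
  refine ⟨L.adCochain_mem_cocycles₁, ?_⟩
  show (Fermat.Agent.S55.globalLevel T).IsLC₁ L.adCochain
  rw [← Fermat.Agent.S55.isLevelConstantS₁_iff]
  obtain ⟨F, hF, h⟩ := isLevelConstantS₁_cochain r L hL T hur
  refine ⟨F, hF, fun g s hs => ?_⟩
  have h1 : L.cochain (g * s) = L.cochain g := h g s hs
  have h2 : tanCochain L.R (g * s) = tanCochain L.R g := congrArg Subtype.val h1
  show toAd0 ρbar (L.endCochain (g * s)) = toAd0 ρbar (L.endCochain g)
  congr 1
  apply Subtype.ext
  rw [TanLift.coe_endCochain, TanLift.coe_endCochain, h2]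

/-- **Cohomologous tangent cocycles ⇒ equivalent deformations.** -/
theorem isEquiv_of_sub_mem_coboundaries₁ {r r' : MatRep (DualNumber k)}
    (L L' : TanLift (stdMat ρbar).toHom) (hL : L.R = r.toHom) (hL' : L'.R = r'.toHom)
    (h : L'.adCochain - L.adCochain ∈ coboundaries₁ (ad0Rep ρbar)) :
    r'.toAdic.IsEquiv r.toAdic := by
  obtain ⟨m, hm⟩ := h
  set b := stdBasis ρbar with hb
  set m0 : Matrix (Fin 2) (Fin 2) k := LinearMap.toMatrix b b ((ofAd0 ρbar m : sl ρbar) : Module.End k ρbar.V)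
    with hm0
  have hm0' : Matrix.toLin b b m0 = ((ofAd0 ρbar m : sl ρbar) : Module.End k ρbar.V) := by
    rw [hm0, Matrix.toLin_toMatrix]
  have key : ∀ τ, tanCochain L'.R τ
      = tanCochain L.R τ + (-m0 - redHom L.R τ * (-m0) * redHom L.R τ⁻¹) := by
    intro τ
    have h1 := congrFun hm τ
    have h3 : ((d₀₁.{0, 0} (ad0Rep ρbar)).hom m) τ = (ad0Rep ρbar).ρ τ m - m := rfl
    rw [h3] at h1
    have h4 : ((ofAd0 ρbar ((ad0Rep ρbar).ρ τ m - m) : sl ρbar) : Module.End k ρbar.V)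
        = Matrix.toLin b b (tanCochain L'.R τ) - Matrix.toLin b b (tanCochain L.R τ) := by
      rw [h1]
      rfl
    have h5 : ((ofAd0 ρbar ((ad0Rep ρbar).ρ τ m - m) : sl ρbar) : Module.End k ρbar.V)
        = ρbar.ρ τ * Matrix.toLin b b m0 * ρbar.ρ τ⁻¹ - Matrix.toLin b b m0 := by
      rw [hm0']
      have : ((ofAd0 ρbar ((ad0Rep ρbar).ρ τ m) : sl ρbar) : Module.End k ρbar.V)
          = ρbar.ρ τ * ((ofAd0 ρbar m : sl ρbar) : Module.End k ρbar.V) * ρbar.ρ τ⁻¹ :=
        coe_ad0Repn_apply ρbar τ (ofAd0 ρbar m)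
      rw [← this]
      rfl
    rw [h5, ← toLin_conj, ← map_sub, ← map_sub] at h4
    have h6 := (Matrix.toLin b b).injective h4
    rw [L.red]
    have h7 : tanCochain L'.R τ
        = tanCochain L.R τ + ((stdMat ρbar) τ * m0 * (stdMat ρbar) τ⁻¹ - m0) := by
      rw [h6]; abel
    rw [h7]
    simp only [mul_neg, neg_mul]
    abel
  have hred : redHom L'.R = redHom L.R := by rw [L'.red, L.red]
  have hconj : r' = r.conj (unitOfTangent (-m0))⁻¹ := by
    refine MatRep.ext fun σ => ?_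
    rw [MatRep.conj_apply, inv_inv, val_unitOfTangent, val_inv_unitOfTangent]
    have := conj_of_tanCochain_sub hred (-m0) key σ
    rw [hL, hL'] at this
    exact this
  rw [hconj]
  exact MatRep.isEquiv_conj _ r

end Fermat.Agent.TW.Sel
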