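/-
S56 design / Program G, block SEL (helper19), file 5: the (SEL) field of
`Contracts.SelmerPackage`.

If a finite-dimensional subspace `W` of the level cohomology `LC.H1 (globalLevel T) (ad0Rep ρbar)`
contains the tangent classes of all deformations of type `𝒟` of `ρbar` to `k[ε]`, then
`TangentCardLe 𝒪 ρbar 𝒟 (finrank W)`.
-/
import Mathlib
import Fermat.Agent.TW.Contracts
import Fermat.Agent.TW.Sel.Class

set_option autoImplicit false
set_option linter.unusedSectionVars false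
set_option linter.style.haveILetI false

namespace Fermat.Agent.TW.Sel

open IsLocalRing Fermat.Agent.S53 Fermat.Agent.CFT Fermat.Agent.TW.Ad0 groupCohomology
open Fermat.Agent.TW.Contracts

local notation "Qb" => AlgebraicClosure ℚ

section Transfer

variable {A : Type} [CommRing A] [IsLocalRing A]

theorem detIsCyclotomic_of_isEquiv {ρ ρ' : GaloisRepAdic A} (h : ρ.IsEquiv ρ') {p : ℕ}
    (hρ : ρ.DetIsCyclotomic p) : ρ'.DetIsCyclotomic p := by
  obtain ⟨e⟩ := h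
  refine ⟨hρ.1, fun n σ a ha => ?_⟩
  have h1 : ρ'.ρ σ = e.toLinearEquiv.conj (ρ.ρ σ) := by
    ext x
    rw [LinearEquiv.conj_apply_apply, e.map_apply, LinearEquiv.apply_symm_apply]
  have h2 : LinearMap.det (ρ'.ρ σ) = LinearMap.det (ρ.ρ σ) := by
    rw [h1]
    exact LinearMap.det_conj (ρ.ρ σ) e.toLinearEquiv
  rw [h2]
  exact hρ.2 n σ a ha

theorem rho_eq_one_of_isEquiv {ρ ρ' : GaloisRepAdic A} (h : ρ.IsEquiv ρ') {σ : GQ}
    (hσ : ρ.ρ σ = 1) : ρ'.ρ σ = 1 := by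
  obtain ⟨e⟩ := h
  ext x
  have := e.map_apply σ (e.toLinearEquiv.symm x)
  rw [LinearEquiv.apply_symm_apply, hσ, Module.End.one_apply, LinearEquiv.apply_symm_apply] at this
  rw [Module.End.one_apply, ← this]

end Transfer

variable {𝒪 : Type} [CommRing 𝒪] [IsLocalRing 𝒪]

local notation "kk" => ResidueField 𝒪

/-- The tangent classes of the deformations of type `𝒟` of `ρbar` to `k[ε]` which are unramified
outside `T`: all classes of LC tangent cocycles of matrix models `r`, reducing to the standard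
matrix form of `ρbar`, of deformations `ρ` of type `𝒟`. -/
def tanClasses (ρbar : ResidualGaloisRep kk) (𝒟 : Cond 𝒪) (T : Finset Nat.Primes) :
    Set (LC.H1 (Fermat.Agent.S55.globalLevel T) (ad0Rep ρbar)) :=
  letI : Algebra 𝒪 (DualNumber kk) := dualNumberAlgebra 𝒪
  {x | ∃ (ρ : GaloisRepAdic (DualNumber kk)) (_ : 𝒟 ρ) (r : MatRep (DualNumber kk))
      (_ : r.toAdic.IsEquiv ρ) (L : TanLift (stdMat ρbar).toHom) (_ : L.R = r.toHom)
      (hZ : L.adCochain ∈ LC.Z₁ (Fermat.Agent.S55.globalLevel T) (ad0Rep ρbar)),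
      x = LC.H1π (Fermat.Agent.S55.globalLevel T) (ad0Rep ρbar) ⟨L.adCochain, hZ⟩}

/-- **(SEL)**: a finite-dimensional subspace of `H¹` containing all tangent classes bounds the
tangent set. -/
theorem tangentCardLe_of_tanClasses_subset {p : ℕ} [Fact p.Prime]
    (ρbar : ResidualGaloisRep kk) (𝒟 : Cond 𝒪) (T : Finset Nat.Primes)
    (hdet : letI : Algebra 𝒪 (DualNumber kk) := dualNumberAlgebra 𝒪
      ∀ ρ : GaloisRepAdic (DualNumber kk), 𝒟 ρ → ρ.DetIsCyclotomic p)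
    (hur : letI : Algebra 𝒪 (DualNumber kk) := dualNumberAlgebra 𝒪
      ∀ ρ : GaloisRepAdic (DualNumber kk), 𝒟 ρ → ∀ q : Nat.Primes, q ∉ T →
        ρ.IsUnramifiedAt (q : ℕ))
    (W : Submodule kk (LC.H1 (Fermat.Agent.S55.globalLevel T) (ad0Rep ρbar)))
    [FiniteDimensional kk W]
    (hW : tanClasses ρbar 𝒟 T ⊆ (W : Set (LC.H1 (Fermat.Agent.S55.globalLevel T) (ad0Rep ρbar)))) :
    TangentCardLe 𝒪 ρbar 𝒟 (Module.finrank kk W) := by
  classical
  letI : Algebra 𝒪 (DualNumber kk) := dualNumberAlgebra 𝒪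
  letI : Algebra kk (ResidueField (DualNumber kk)) := dualNumberResidueAlgebra 𝒪
  -- models
  have hmodel : ∀ ρ : {ρ : GaloisRepAdic (DualNumber kk) //
      𝒟 ρ ∧ ρ.residual.IsEquiv (ρbar.baseChange (ResidueField (DualNumber kk)))},
      ∃ (r : MatRep (DualNumber kk)) (L : TanLift (stdMat ρbar).toHom),
        r.toAdic.IsEquiv ρ.1 ∧ L.R = r.toHom ∧
        L.adCochain ∈ LC.Z₁ (Fermat.Agent.S55.globalLevel T) (ad0Rep ρbar) := by
    rintro ⟨ρ, h𝒟, hres⟩
    obtain ⟨r, hr, hred⟩ := exists_matRep_lift ρbar (stdMat ρbar) (stdMat_isEquiv ρbar) ρ hres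
    have hdet' : r.toAdic.DetIsCyclotomic p :=
      detIsCyclotomic_of_isEquiv ⟨(Classical.choice hr).symm⟩ (hdet ρ h𝒟)
    refine ⟨r, tanLiftOf (stdMat ρbar) r hred hdet', hr, rfl, ?_⟩
    refine TanLift.adCochain_mem_Z₁ _ r rfl T (fun q hq A hA g hg => ?_)
    have h1 : ρ.ρ g = 1 := hur ρ h𝒟 q hq A hA g hg
    have h2 : r.toAdic.ρ g = 1 := rho_eq_one_of_isEquiv ⟨(Classical.choice hr).symm⟩ h1
    have h3 : Matrix.toLin' (r g) = Matrix.toLin' (1 : Matrix (Fin 2) (Fin 2) (DualNumber kk)) := by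
      rw [Matrix.toLin'_one]
      exact h2
    exact Matrix.toLin'.injective h3
  choose r L hr hL hZ using hmodel
  set cls : {ρ : GaloisRepAdic (DualNumber kk) //
      𝒟 ρ ∧ ρ.residual.IsEquiv (ρbar.baseChange (ResidueField (DualNumber kk)))} →
      LC.H1 (Fermat.Agent.S55.globalLevel T) (ad0Rep ρbar) :=
    fun ρ => LC.H1π (Fermat.Agent.S55.globalLevel T) (ad0Rep ρbar) ⟨(L ρ).adCochain, hZ ρ⟩ with hcls
  have hmem : ∀ ρ, cls ρ ∈ W := fun ρ =>
    hW ⟨ρ.1, ρ.2.1, r ρ, hr ρ, L ρ, hL ρ, hZ ρ, rfl⟩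
  let b := Module.finBasis kk W
  refine ⟨fun ρ i => b.repr ⟨cls ρ, hmem ρ⟩ i, fun ρ ρ' h => ?_⟩
  have h1 : b.repr ⟨cls ρ, hmem ρ⟩ = b.repr ⟨cls ρ', hmem ρ'⟩ :=
    Finsupp.ext fun i => congrFun h i
  have h2 : cls ρ = cls ρ' := congrArg Subtype.val (b.repr.injective h1)
  have h3 : (L ρ).adCochain - (L ρ').adCochain ∈ coboundaries₁ (ad0Rep ρbar) := by
    have := (Submodule.Quotient.eq _).1 h2
    exact this
  have h4 : (r ρ).toAdic.IsEquiv (r ρ').toAdic :=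
    isEquiv_of_sub_mem_coboundaries₁ (L ρ') (L ρ) (hL ρ') (hL ρ) h3
  obtain ⟨e1⟩ := hr ρ
  obtain ⟨e2⟩ := h4
  obtain ⟨e3⟩ := hr ρ'
  exact ⟨(e1.symm.trans e2).trans e3⟩

end Fermat.Agent.TW.Sel
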