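/-
S56 / Program G, block SEL (helper19), file 6: the literal local conditions of the Prelude are
invariant under `GaloisRepAdic.IsEquiv` (over any local ring), hence so are
`strictOrdinaryCondition`, `flatCondition` and `Contracts.condQ`.
-/
import Mathlib
import Fermat.Agent.TW.Contracts
import Fermat.Agent.TW.Sel.Sel

set_option autoImplicit false
set_option linter.unusedSectionVars false
set_option linter.style.haveILetI false

namespace Fermat.Agent.TW.Sel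

open IsLocalRing Polynomial

local notation "Qb" => AlgebraicClosure ℚ
local notation "Γℚ" => (AlgebraicClosure ℚ ≃ₐ[ℚ] AlgebraicClosure ℚ)

variable {A : Type} [CommRing A] [IsLocalRing A]

/-- The action of `ρ'` is the conjugate of the action of `ρ` by an equivalence. -/
theorem rho_eq_conj {ρ ρ' : GaloisRepAdic A} (e : ρ.Equiv ρ') (σ : Γℚ) :
    ρ'.ρ σ = e.toLinearEquiv.conj (ρ.ρ σ) := by
  ext x
  rw [LinearEquiv.conj_apply_apply, e.map_apply, LinearEquiv.apply_symm_apply]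

theorem isUnramifiedAt_of_isEquiv {ρ ρ' : GaloisRepAdic A} (h : ρ.IsEquiv ρ') {q : ℕ}
    (hρ : ρ.IsUnramifiedAt q) : ρ'.IsUnramifiedAt q :=
  fun P hP σ hσ => rho_eq_one_of_isEquiv h (hρ P hP σ hσ)

theorem isUnipotentOnInertiaAt_of_isEquiv {ρ ρ' : GaloisRepAdic A} (h : ρ.IsEquiv ρ') {q : ℕ}
    (hρ : ρ.IsUnipotentOnInertiaAt q) : ρ'.IsUnipotentOnInertiaAt q := by
  obtain ⟨e⟩ := h
  intro P hP σ hσ
  rw [rho_eq_conj e σ, LinearEquiv.charpoly_conj]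
  exact hρ P hP σ hσ

theorem isStrictOrdinaryAt_of_isEquiv {ρ ρ' : GaloisRepAdic A} (h : ρ.IsEquiv ρ') {p : ℕ}
    (hρ : ρ.IsStrictOrdinaryAt p) : ρ'.IsStrictOrdinaryAt p := by
  obtain ⟨e⟩ := h
  refine ⟨hρ.1, fun P hP => ?_⟩
  obtain ⟨L, ⟨b, hb⟩, hD, hI, hxz⟩ := hρ.2 P hP
  set ε := e.toLinearEquiv with hε
  have hmap : ∀ σ v, ρ'.ρ σ (ε v) = ε (ρ.ρ σ v) := fun σ v => (e.map_apply σ v).symm
  refine ⟨L.map (ε : ρ.V →ₗ[A] ρ'.V), ⟨b.map ε, ?_⟩, ?_, ?_, ?_⟩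
  · rw [hb, Submodule.map_span, Set.image_singleton, Module.Basis.map_apply]
    rfl
  · rintro σ hσ _ ⟨v, hv, rfl⟩
    exact ⟨ρ.ρ σ v, hD σ hσ v hv, (hmap σ v).symm⟩
  · intro σ hσ v'
    obtain ⟨v, rfl⟩ := ε.surjective v'
    refine ⟨ρ.ρ σ v - v, hI σ hσ v, ?_⟩
    show ε (ρ.ρ σ v - v) = ρ'.ρ σ (ε v) - ε v
    rw [map_sub, hmap]
  · intro σ hσ
    obtain ⟨x, z, h1, h2, h3⟩ := hxz σ hσ
    refine ⟨x, z, ?_, ?_, h3⟩
    · rintro _ ⟨w, hw, rfl⟩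
      show ρ'.ρ σ (ε w) = x • ε w
      rw [hmap, h1 w hw, map_smul]
    · intro v'
      obtain ⟨v, rfl⟩ := ε.surjective v'
      refine ⟨ρ.ρ σ v - z • v, h2 v, ?_⟩
      show ε (ρ.ρ σ v - z • v) = ρ'.ρ σ (ε v) - z • ε v
      rw [map_sub, map_smul, hmap]

/-- The linear equivalence induced by an equivalence on the quotients `V / I V`. -/
noncomputable def quotEquiv {ρ ρ' : GaloisRepAdic A} (e : ρ.Equiv ρ') (I : Ideal A) :
    (ρ.V ⧸ (I • (⊤ : Submodule A ρ.V))) ≃ₗ[A] (ρ'.V ⧸ (I • (⊤ : Submodule A ρ'.V))) :=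
  Submodule.Quotient.equiv _ _ e.toLinearEquiv (by
    rw [Submodule.map_smul'', Submodule.map_top, LinearMap.range_eq_top.mpr
      e.toLinearEquiv.surjective])

theorem quotEquiv_mk {ρ ρ' : GaloisRepAdic A} (e : ρ.Equiv ρ') (I : Ideal A) (v : ρ.V) :
    quotEquiv e I (Submodule.Quotient.mk v) = Submodule.Quotient.mk (e.toLinearEquiv v) := rfl

theorem quotEquiv_levelAction {ρ ρ' : GaloisRepAdic A} (e : ρ.Equiv ρ') (I : Ideal A) (σ : Γℚ)
    (x : ρ.V ⧸ (I • (⊤ : Submodule A ρ.V))) :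
    quotEquiv e I (ρ.levelAction I σ x) = ρ'.levelAction I σ (quotEquiv e I x) := by
  obtain ⟨v, rfl⟩ := Submodule.Quotient.mk_surjective _ x
  show quotEquiv e I (Submodule.Quotient.mk (ρ.ρ σ v))
    = ρ'.levelAction I σ (Submodule.Quotient.mk (e.toLinearEquiv v))
  rw [quotEquiv_mk, e.map_apply]
  rfl

theorem isFlatAt_of_isEquiv {ρ ρ' : GaloisRepAdic A} (h : ρ.IsEquiv ρ') {p : ℕ}
    (hρ : ρ.IsFlatAt p) : ρ'.IsFlatAt p := by
  obtain ⟨e⟩ := h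
  refine ⟨hρ.1, fun I hI => ?_⟩
  obtain ⟨H, i1, i2, hfin, hflat, hco, ε, hadd, hact⟩ := hρ.2 I hI
  refine ⟨H, i1, i2, hfin, hflat, hco, ε.trans (quotEquiv e I).toEquiv, ?_, ?_⟩
  · intro f g
    show quotEquiv e I (ε (f * g)) = quotEquiv e I (ε f) + quotEquiv e I (ε g)
    rw [hadd, map_add]
  · intro σ f g hfg
    show quotEquiv e I (ε g) = ρ'.levelAction I σ (quotEquiv e I (ε f))
    rw [hact σ f g hfg, quotEquiv_levelAction]

section Conditions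

variable {𝒪 : Type} [CommRing 𝒪] [Algebra 𝒪 A]

theorem strictOrdinaryCondition_of_isEquiv {p : ℕ} {S : Finset ℕ} {ρ ρ' : GaloisRepAdic A}
    (h : ρ.IsEquiv ρ') (hρ : GaloisRep.strictOrdinaryCondition 𝒪 p S ρ) :
    GaloisRep.strictOrdinaryCondition 𝒪 p S ρ' :=
  ⟨detIsCyclotomic_of_isEquiv h hρ.1, isStrictOrdinaryAt_of_isEquiv h hρ.2.1,
    fun q hq hqS => isUnramifiedAt_of_isEquiv h (hρ.2.2 q hq hqS)⟩

theorem flatCondition_of_isEquiv {p : ℕ} {S : Finset ℕ} {ρ ρ' : GaloisRepAdic A}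
    (h : ρ.IsEquiv ρ') (hρ : GaloisRep.flatCondition 𝒪 p S ρ) :
    GaloisRep.flatCondition 𝒪 p S ρ' :=
  ⟨detIsCyclotomic_of_isEquiv h hρ.1, isFlatAt_of_isEquiv h hρ.2.1,
    fun q hq hqS => isUnramifiedAt_of_isEquiv h (hρ.2.2 q hq hqS)⟩

end Conditions

section CondQ

open Fermat.Agent.TW.Contracts

variable {𝒪 : Type} [CommRing 𝒪] [IsLocalRing 𝒪] [Algebra 𝒪 A]

theorem condQ_strictOrdinary_of_isEquiv {p : ℕ} {Smin Q : Finset ℕ} {ρ ρ' : GaloisRepAdic A}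
    (h : ρ.IsEquiv ρ')
    (hρ : condQ (fun p T => GaloisRep.strictOrdinaryCondition 𝒪 p T) p Smin Q ρ) :
    condQ (fun p T => GaloisRep.strictOrdinaryCondition 𝒪 p T) p Smin Q ρ' :=
  ⟨strictOrdinaryCondition_of_isEquiv h hρ.1,
    fun q hq hqp hne => isUnipotentOnInertiaAt_of_isEquiv h (hρ.2 q hq hqp hne)⟩

theorem condQ_flat_of_isEquiv {p : ℕ} {Smin Q : Finset ℕ} {ρ ρ' : GaloisRepAdic A}
    (h : ρ.IsEquiv ρ')
    (hρ : condQ (fun p T => GaloisRep.flatCondition 𝒪 p T) p Smin Q ρ) :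
    condQ (fun p T => GaloisRep.flatCondition 𝒪 p T) p Smin Q ρ' :=
  ⟨flatCondition_of_isEquiv h hρ.1,
    fun q hq hqp hne => isUnipotentOnInertiaAt_of_isEquiv h (hρ.2 q hq hqp hne)⟩

end CondQ

end Fermat.Agent.TW.Sel
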