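/-
S56 / Program G, block SEL (helper19), file 7: cocycle-level forms of the local conditions, for the
LOC owners.  `r : MatRep k[ε]` with `mfst (r σ) = rb σ`, `c = tanCochain r.toHom`:

* `tanCochain_eq_zero_of_eq_one` : `r g = 1 ⇒ c g = 0` (unramified places);
* `unipotent_forms` : `charpoly (r g) = (X - 1)²` ⇒ `tr (rb g) = 2`, `det (rb g) = 1`,
  `tr (c g * rb g) = 0` (places of `Smin ∖ {p}`).
-/
import Mathlib
import Fermat.Agent.TW.Sel.EquivInv

set_option autoImplicit false
set_option linter.unusedSectionVars false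

namespace Fermat.Agent.TW.Sel

open IsLocalRing Polynomial Fermat.Agent.S53

local notation "Qb" => AlgebraicClosure ℚ

variable {k : Type} [Field k]

theorem tanCochain_eq_zero_of_eq_one {G : Type*} [Group G]
    (R : G →* Matrix (Fin 2) (Fin 2) (DualNumber k)) {g : G} (hg : R g = 1) :
    tanCochain R g = 0 := by
  rw [tanCochain, hg, msnd_one, zero_mul]

/-- Trace and determinant commute with `mfst`, `msnd` for `2 × 2` matrices. -/
theorem fst_trace (X : Matrix (Fin 2) (Fin 2) (DualNumber k)) : (X.trace).fst = (mfst X).trace := by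
  simp [Matrix.trace_fin_two]

theorem snd_trace (X : Matrix (Fin 2) (Fin 2) (DualNumber k)) : (X.trace).snd = (msnd X).trace := by
  simp [Matrix.trace_fin_two]

theorem fst_det (X : Matrix (Fin 2) (Fin 2) (DualNumber k)) : (X.det).fst = (mfst X).det := by
  simp [Matrix.det_fin_two]

/-- **Unipotent inertia, cocycle form.** -/
theorem unipotent_forms {G : Type*} [Group G]
    (R : G →* Matrix (Fin 2) (Fin 2) (DualNumber k)) {g : G}
    (hg : (R g).charpoly = (X - 1) ^ 2) :
    (redHom R g).trace = 2 ∧ (redHom R g).det = 1 ∧ (tanCochain R g * redHom R g).trace = 0 := by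
  rw [Matrix.charpoly_fin_two] at hg
  have h3 : (R g).det = 1 := by
    have := congrArg (Polynomial.eval 0) hg
    simpa using this
  have h1 : (R g).trace = 2 := by
    have := congrArg (Polynomial.eval 1) hg
    simp only [eval_add, eval_sub, eval_mul, eval_pow, eval_X, eval_C, eval_one, h3] at this
    linear_combination -this
  refine ⟨?_, ?_, ?_⟩
  · rw [redHom_apply, ← fst_trace, h1]
    rfl
  · rw [redHom_apply, ← fst_det, h3]
    rfl
  · rw [← msnd_eq_tanCochain_mul, ← snd_trace, h1]
    rfl

/-- The same for the literal Prelude condition on a matrix model. -/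
theorem unipotent_forms_of_isUnipotentOnInertiaAt (r : MatRep (DualNumber k)) {q : ℕ}
    (h : r.toAdic.IsUnipotentOnInertiaAt q) (P : ValuationSubring Qb) (hP : P.LiesOverPrime q)
    (g : GQ) (hg : g ∈ P.inertiaSubgroupIn ℚ) :
    (redHom r.toHom g).trace = 2 ∧ (redHom r.toHom g).det = 1 ∧
      (tanCochain r.toHom g * redHom r.toHom g).trace = 0 := by
  have h1 := h P hP g hg
  have h2 : LinearMap.charpoly (r.toAdic.ρ g) = (r.toHom g).charpoly :=
    Matrix.charpoly_toLin' (r.toHom g)
  rw [h2] at h1
  exact unipotent_forms r.toHom h1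

end Fermat.Agent.TW.Sel
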