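import Fermat.Agent.TW.Sel.TraceDualModel
import Fermat.Agent.TW.GW.RestrictFp
import Fermat.Agent.TW.Cheb.Main

/-!
# PROGRAM G (S56): the `AdjointModel` on `dualTw p (rsFp p (ad0Rep ρbar))`

The instance of `TraceDualModel.adjointModel` for the `𝔽_p`-model `rsFp p (ad0Rep ρbar)` of the
GW assembly (`TW/GW/RestrictFp.lean`): same carrier `sl ρbar`, same action, `j = id`.
-/

set_option autoImplicit false

open Fermat.Agent.TW.Ad0 Fermat.Agent.CFT.PT ExtCitation Fermat.Agent.TW.Cheb groupCohomology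
open Fermat.Agent.TW.GW.RestrictFp Polynomial
open Fermat.Agent.CFT Fermat.Agent.S55

namespace Fermat.Agent.TW.TraceDual

local notation "Qb" => AlgebraicClosure ℚ
local notation "GQ" => (AlgebraicClosure ℚ ≃ₐ[ℚ] AlgebraicClosure ℚ)

variable (p : ℕ) [Fact p.Prime] {k : Type} [Field k] [Finite k] [Algebra (ZMod p) k]
  (ρbar : ResidualGaloisRep k)

/-- The identity `rsFp p (ad0Rep ρbar) ≃+ sl ρbar`. -/
noncomputable def rsFpAd0Equiv : (rsFp p (ad0Rep ρbar)) ≃+ sl ρbar := AddEquiv.refl (sl ρbar)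

omit [Finite k] in
theorem rsFpAd0Equiv_ρ (σ : GQ) (m : rsFp p (ad0Rep ρbar)) :
    (rsFpAd0Equiv p ρbar ((rsFp p (ad0Rep ρbar)).ρ σ m) : Module.End k ρbar.V) =
      ρbar.ρ σ * (rsFpAd0Equiv p ρbar m : Module.End k ρbar.V) * ρbar.ρ σ⁻¹ :=
  coe_ad0Repn_apply ρbar σ m

/-- **The `AdjointModel` of the GW assembly**: `Mstar = dualTw p (rsFp p (ad0Rep ρbar))`. -/
noncomputable def adjointModelFp (hp2 : p ≠ 2)
    (hdet : (GaloisRepAdic.ofResidualGaloisRep ρbar).DetIsCyclotomic p) :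
    AdjointModel ρbar (dualTw p (rsFp p (ad0Rep ρbar))) :=
  adjointModel p ρbar hp2 hdet (rsFpAd0Equiv p ρbar) (rsFpAd0Equiv_ρ p ρbar)

/-- The pairing `M × Mstar → 𝔽_p` through the comparison map:
`f m = Tr_{k/𝔽_p} (tr (e f ∘ m))`. -/
theorem apply_eq_trace_adjointModelFp_e (hp2 : p ≠ 2)
    (hdet : (GaloisRepAdic.ofResidualGaloisRep ρbar).DetIsCyclotomic p)
    (f : Module.Dual (ZMod p) (rsFp p (ad0Rep ρbar))) (m : sl ρbar) :
    f (show rsFp p (ad0Rep ρbar) from m) = Algebra.trace (ZMod p) k (LinearMap.trace k ρbar.V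
      ((adjointModelFp p ρbar hp2 hdet).e (show dualTw p (rsFp p (ad0Rep ρbar)) from f) *
        (m : Module.End k ρbar.V))) :=
  apply_eq_trace_adjointModel_e p ρbar hp2 hdet (rsFpAd0Equiv p ρbar) (rsFpAd0Equiv_ρ p ρbar) f m

/-- **Taylor–Wiles primes for the GW assembly**: `tw_primes` (block TW) at
`Mstar = dualTw p (rsFp p (ad0Rep ρbar))`, `E = adjointModelFp`. -/
theorem tw_primes_fp (hp2 : p ≠ 2) (habs : ρbar.IsAbsolutelyIrreducible)
    (hdet : (GaloisRepAdic.ofResidualGaloisRep ρbar).DetIsCyclotomic p)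
    (hsplit : ∀ σ : GQ, ∃ α β : k, LinearMap.charpoly (ρbar.ρ σ) = (X - C α) * (X - C β))
    (hTW : HTW ρbar)
    (S Smin : Finset ℕ) (hpSmin : p ∈ Smin) (hSmin : Smin ⊆ S)
    (hmin : ∀ q : ℕ, q.Prime → q ≠ p → (q ∈ Smin ↔ ¬ ρbar.IsUnramifiedAt q))
    (T₀ : Finset Nat.Primes) (hT₀ : ∀ q : Nat.Primes, q ∈ T₀ ↔ (q : ℕ) ∈ Smin)
    [Module.Finite (ZMod p) (LC.H1 (globalLevel T₀) (dualTw p (rsFp p (ad0Rep ρbar))))] :
    ∃ r : ℕ, ∀ n : ℕ, ∃ qv : Fin r → ℕ, Function.Injective qv ∧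
      (∀ i, (qv i).Prime ∧ qv i ∉ S ∧ p ^ (n + 1) ∣ qv i - 1) ∧
      (∀ i, ∀ P : ValuationSubring Qb, P.LiesOverPrime (qv i) →
        ∀ φ : GQ, P.IsFrobeniusAt φ (qv i) →
          ∃ α β : k, α ≠ β ∧ LinearMap.charpoly (ρbar.ρ φ) = (X - C α) * (X - C β)) ∧
      ∀ T' : Finset Nat.Primes,
        (∀ q : Nat.Primes, q ∈ T' ↔ (q : ℕ) ∈ Smin ∪ Finset.univ.image qv) →
        ∀ x : LC.H1 (globalLevel T') (dualTw p (rsFp p (ad0Rep ρbar))),
          (∀ q : Nat.Primes, (q : ℕ) ∈ Finset.univ.image qv →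
            lcResH1 (dualTw p (rsFp p (ad0Rep ρbar)))
              (levelCompat_globalLevel (primeLocalToGlobal q) T') x = 0) → x = 0 :=
  tw_primes p hp2 ρbar habs hdet hsplit hTW S Smin hpSmin hSmin hmin T₀ hT₀
    (dualTw p (rsFp p (ad0Rep ρbar))) (adjointModelFp p ρbar hp2 hdet)

end Fermat.Agent.TW.TraceDual
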