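import Mathlib
import Fermat.Agent.TW.Ad0
import Fermat.Agent.Res.CycloModP
import Fermat.Agent.CFT.PT.DualTwistDict
import Fermat.Prelude.Def_GaloisRep_LocalConditions

/-!
# PROGRAM G (S56): the trace form identifies `(ad⁰ ρbar)^* (1)` over `𝔽_p` with `ad⁰ ρbar ⊗ det`

`k` a finite field with an `𝔽_p`-algebra structure, `ρbar : ResidualGaloisRep k`,
`M : Rep (ZMod p) G_ℚ` any model of `ad⁰ ρbar` with scalars restricted to `𝔽_p`: an additive
bijection `j : M ≃+ sl ρbar` with `j (σ m) = ρbar σ * j m * ρbar σ⁻¹`.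
`Mstar = dualTw p M = M.dualTwist (cycloChar p)` is the Prelude's Tate-twisted `𝔽_p`-dual.

* `tracePair j X : Module.Dual (ZMod p) M`, `m ↦ Tr_{k/𝔽_p} (tr (X ∘ j m))` for `X ∈ sl ρbar`;
* `tracePairHom_bijective` : `X ↦ tracePair j X` is a bijection `sl ρbar → Mstar` (`2 ≠ 0` in `k`);
* `traceE j h2 : Mstar →+ End_k V`, the inverse bijection followed by the inclusion, with
  `traceE_injective`, `trace_traceE`, `traceE_surj`, `traceE_equiv` — literally the four fields of
  the `AdjointModel` structure of block TW (`e (σ m) = det (ρbar σ) • (ρbar σ * e m * ρbar σ⁻¹)`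
  uses `det ρbar = cycloChar p`, `det_eq_algebraMap_cycloChar`).
-/

set_option autoImplicit false

open Fermat.Agent.TW.Ad0 Fermat.Agent.CFT.PT ExtCitation

namespace Fermat.Agent.TW.TraceDual

local notation "GQ" => (AlgebraicClosure ℚ ≃ₐ[ℚ] AlgebraicClosure ℚ)

/-! ### Linear algebra: the trace form on `sl₂` -/

section LinAlg

variable {k : Type*} [Field k] {V : Type*} [AddCommGroup V] [Module k V]

/-- A traceless endomorphism of a plane which is orthogonal to all traceless endomorphisms for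
the trace form vanishes (`2 ≠ 0`). -/
theorem eq_zero_of_trace_mul_eq_zero (hV : Module.finrank k V = 2) (h2 : (2 : k) ≠ 0)
    (X : Module.End k V) (hX : LinearMap.trace k V X = 0)
    (h : ∀ Y : Module.End k V, LinearMap.trace k V Y = 0 → LinearMap.trace k V (X * Y) = 0) :
    X = 0 := by
  have : Module.Finite k V := Module.finite_of_finrank_eq_succ hV
  let b := Module.finBasisOfFinrankEq k V hV
  set A := LinearMap.toMatrix b b X with hA
  have key : ∀ N : Matrix (Fin 2) (Fin 2) k, N.trace = 0 → (A * N).trace = 0 := by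
    intro N hN
    have h1 := h (Matrix.toLin b b N) (by
      rw [LinearMap.trace_eq_matrix_trace k b, LinearMap.toMatrix_toLin, hN])
    rwa [LinearMap.trace_eq_matrix_trace k b, Module.End.mul_eq_comp, LinearMap.toMatrix_comp b b b,
      LinearMap.toMatrix_toLin] at h1
  have hX' : A.trace = 0 := by rw [hA, ← LinearMap.trace_eq_matrix_trace k b]; exact hX
  have e1 := key (Matrix.of ![![0, 1], ![0, 0]]) (by simp [Matrix.trace_fin_two])
  have e2 := key (Matrix.of ![![0, 0], ![1, 0]]) (by simp [Matrix.trace_fin_two])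
  have e3 := key (Matrix.of ![![1, 0], ![0, -1]]) (by simp [Matrix.trace_fin_two])
  simp [Matrix.trace_fin_two, Matrix.mul_apply, Fin.sum_univ_two] at e1 e2 e3
  rw [Matrix.trace_fin_two] at hX'
  have h00 : A 0 0 = 0 := by
    have : (2 : k) * A 0 0 = 0 := by linear_combination hX' + e3
    exact (mul_eq_zero.mp this).resolve_left h2
  have h11 : A 1 1 = 0 := by linear_combination hX' - h00
  have hA0 : A = 0 := by
    ext i j
    fin_cases i <;> fin_cases j <;> simp [h00, h11, e1, e2]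
  have : LinearMap.toMatrix b b X = LinearMap.toMatrix b b 0 := by rw [← hA, hA0, map_zero]
  exact (LinearMap.toMatrix b b).injective this

end LinAlg

/-! ### The pairing -/

section Pair

variable (p : ℕ) [Fact p.Prime] {k : Type} [Field k] [Algebra (ZMod p) k]
  (ρbar : ResidualGaloisRep k) {M : Rep.{0} (ZMod p) GQ}

local notation "tr" => LinearMap.trace k ρbar.V
local notation "Tr" => Algebra.trace (ZMod p) k

/-- `m ↦ Tr_{k/𝔽_p} (tr (X ∘ j m))` as an additive map. -/
noncomputable def tracePairAdd (j : M ≃+ sl ρbar) (X : Module.End k ρbar.V) : M →+ ZMod p where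
  toFun m := Tr (tr (X * (j m : Module.End k ρbar.V)))
  map_zero' := by simp
  map_add' m m' := by
    rw [map_add, Submodule.coe_add, mul_add, map_add, map_add]

/-- `m ↦ Tr_{k/𝔽_p} (tr (X ∘ j m))` as an `𝔽_p`-linear functional. -/
noncomputable def tracePair (j : M ≃+ sl ρbar) (X : Module.End k ρbar.V) : Module.Dual (ZMod p) M :=
  (tracePairAdd p ρbar j X).toZModLinearMap p

theorem tracePair_apply (j : M ≃+ sl ρbar) (X : Module.End k ρbar.V) (m : M) :
    tracePair p ρbar j X m = Tr (tr (X * (j m : Module.End k ρbar.V))) := rfl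

/-- `X ↦ tracePair j X` as an additive map into the carrier of `dualTw p M`. -/
noncomputable def tracePairHom (j : M ≃+ sl ρbar) : sl ρbar →+ Module.Dual (ZMod p) M where
  toFun X := tracePair p ρbar j X
  map_zero' := by
    refine LinearMap.ext fun m => ?_
    rw [tracePair_apply]
    simp
  map_add' X Y := by
    refine LinearMap.ext fun m => ?_
    rw [LinearMap.add_apply, tracePair_apply, tracePair_apply, tracePair_apply, Submodule.coe_add,
      add_mul, map_add, map_add]

theorem tracePairHom_apply (j : M ≃+ sl ρbar) (X : sl ρbar) (m : M) :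
    tracePairHom p ρbar j X m = Tr (tr ((X : Module.End k ρbar.V) * (j m : Module.End k ρbar.V))) :=
  rfl

variable [Finite k]

theorem tracePairHom_injective (h2 : (2 : k) ≠ 0) (j : M ≃+ sl ρbar) :
    Function.Injective (tracePairHom p ρbar j) := by
  rw [injective_iff_map_eq_zero]
  intro X hX
  have h1 : ∀ Y : Module.End k ρbar.V, tr Y = 0 → tr ((X : Module.End k ρbar.V) * Y) = 0 := by
    intro Y hY
    have hnd := traceForm_nondegenerate (ZMod p) k
    refine hnd.1 _ fun c => ?_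
    rw [Algebra.traceForm_apply]
    have hcY : c • Y ∈ sl ρbar := (sl ρbar).smul_mem c ((mem_sl_iff ρbar Y).mpr hY)
    have h3 := LinearMap.congr_fun hX (j.symm ⟨c • Y, hcY⟩)
    rw [tracePairHom_apply, AddEquiv.apply_symm_apply, LinearMap.zero_apply] at h3
    rw [← h3, mul_comm, ← smul_eq_mul, ← map_smul, mul_smul_comm]
  apply Subtype.ext
  exact eq_zero_of_trace_mul_eq_zero ρbar.finrank_eq h2 _ ((mem_sl_iff ρbar _).mp X.2) h1

omit [Algebra (ZMod p) k] in
theorem finite_of_addEquiv_sl (j : M ≃+ sl ρbar) : Finite M :=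
  have : Finite (sl ρbar) := Module.finite_of_finite k
  Finite.of_equiv _ j.symm.toEquiv

omit [Algebra (ZMod p) k] in
theorem card_dual_eq (j : M ≃+ sl ρbar) :
    Nat.card (Module.Dual (ZMod p) M) = Nat.card M := by
  have := finite_of_addEquiv_sl p ρbar j
  have : Module.Finite (ZMod p) M := Module.Finite.of_finite
  exact (Nat.card_congr (Module.Free.chooseBasis (ZMod p) M).toDualEquiv.toEquiv).symm

theorem tracePairHom_bijective (h2 : (2 : k) ≠ 0) (j : M ≃+ sl ρbar) :
    Function.Bijective (tracePairHom p ρbar j) := by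
  have := finite_of_addEquiv_sl p ρbar j
  have : Finite (Module.Dual (ZMod p) M) := Module.finite_of_finite (ZMod p)
  rw [Nat.bijective_iff_injective_and_card]
  exact ⟨tracePairHom_injective p ρbar h2 j, by
    rw [card_dual_eq p ρbar j]; exact (Nat.card_congr j.toEquiv).symm⟩

/-- The bijection `sl ρbar ≃+ Mstar` given by the trace form. -/
noncomputable def tracePairEquiv (h2 : (2 : k) ≠ 0) (j : M ≃+ sl ρbar) :
    sl ρbar ≃+ Module.Dual (ZMod p) M :=
  AddEquiv.ofBijective (tracePairHom p ρbar j) (tracePairHom_bijective p ρbar h2 j)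

/-- **The comparison map** `e : Mstar →+ End_k V` of the `AdjointModel` structure of block TW,
for `Mstar = dualTw p M`. -/
noncomputable def traceE (h2 : (2 : k) ≠ 0) (j : M ≃+ sl ρbar) :
    (dualTw p M) →+ Module.End k ρbar.V :=
  ((sl ρbar).subtype : sl ρbar →+ Module.End k ρbar.V).comp
    ((tracePairEquiv p ρbar h2 j).symm : Module.Dual (ZMod p) M →+ sl ρbar)

theorem traceE_apply (h2 : (2 : k) ≠ 0) (j : M ≃+ sl ρbar) (f : Module.Dual (ZMod p) M) :
    traceE p ρbar h2 j (show dualTw p M from f) =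
      ((tracePairEquiv p ρbar h2 j).symm f : Module.End k ρbar.V) := rfl

theorem traceE_tracePair (h2 : (2 : k) ≠ 0) (j : M ≃+ sl ρbar) (X : sl ρbar) :
    traceE p ρbar h2 j (show dualTw p M from tracePair p ρbar j X) = X := by
  rw [traceE_apply]
  exact congrArg Subtype.val ((tracePairEquiv p ρbar h2 j).symm_apply_apply X)

theorem traceE_injective (h2 : (2 : k) ≠ 0) (j : M ≃+ sl ρbar) :
    Function.Injective (traceE p ρbar h2 j) := by
  intro f f' h
  exact (tracePairEquiv p ρbar h2 j).symm.injective (Subtype.ext h)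

theorem trace_traceE (h2 : (2 : k) ≠ 0) (j : M ≃+ sl ρbar) (f : dualTw p M) :
    tr (traceE p ρbar h2 j f) = 0 :=
  (mem_sl_iff ρbar _).mp ((tracePairEquiv p ρbar h2 j).symm f).2

theorem traceE_surj (h2 : (2 : k) ≠ 0) (j : M ≃+ sl ρbar) (w : Module.End k ρbar.V)
    (hw : tr w = 0) : ∃ f : dualTw p M, traceE p ρbar h2 j f = w :=
  ⟨(show dualTw p M from tracePair p ρbar j w),
    traceE_tracePair p ρbar h2 j ⟨w, (mem_sl_iff ρbar w).mpr hw⟩⟩

omit [Finite k] in
/-- The Galois action on `Mstar` in terms of the trace pairing: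
`σ • ⟨X, ·⟩ = ⟨χ(σ) • ρbar σ X ρbar σ⁻¹, ·⟩`. -/
theorem dualTw_ρ_tracePair (j : M ≃+ sl ρbar)
    (hj : ∀ (σ : GQ) (m : M),
      (j (M.ρ σ m) : Module.End k ρbar.V) = ρbar.ρ σ * (j m : Module.End k ρbar.V) * ρbar.ρ σ⁻¹)
    (σ : GQ) (X : Module.End k ρbar.V) :
    (dualTw p M).ρ σ (show dualTw p M from tracePair p ρbar j X) =
      (show dualTw p M from tracePair p ρbar j
        (algebraMap (ZMod p) k ((cycloChar p σ : (ZMod p)ˣ) : ZMod p) •
          (ρbar.ρ σ * X * ρbar.ρ σ⁻¹))) := by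
  refine LinearMap.ext fun m => ?_
  rw [Rep.dualTwist_ρ_apply]
  show ((cycloChar p σ : (ZMod p)ˣ) : ZMod p) • tracePair p ρbar j X (M.ρ σ⁻¹ m) = _
  rw [tracePair_apply, tracePair_apply, hj, inv_inv, smul_mul_assoc, LinearMap.map_smul,
    algebraMap_smul, LinearMap.map_smul]
  congr 2
  have h1 : X * (ρbar.ρ σ⁻¹ * (j m : Module.End k ρbar.V) * ρbar.ρ σ) =
      (X * ρbar.ρ σ⁻¹ * (j m : Module.End k ρbar.V)) * ρbar.ρ σ := by simp only [mul_assoc]
  rw [h1, LinearMap.trace_mul_comm]
  simp only [mul_assoc]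

/-- **Equivariance** of the comparison map: the `equiv` field of `AdjointModel`. -/
theorem traceE_equiv (h2 : (2 : k) ≠ 0) (j : M ≃+ sl ρbar)
    (hj : ∀ (σ : GQ) (m : M),
      (j (M.ρ σ m) : Module.End k ρbar.V) = ρbar.ρ σ * (j m : Module.End k ρbar.V) * ρbar.ρ σ⁻¹)
    (hdet : ∀ σ : GQ, LinearMap.det (ρbar.ρ σ) =
      algebraMap (ZMod p) k ((cycloChar p σ : (ZMod p)ˣ) : ZMod p))
    (σ : GQ) (f : dualTw p M) :
    traceE p ρbar h2 j ((dualTw p M).ρ σ f) =
      LinearMap.det (ρbar.ρ σ) • (ρbar.ρ σ * traceE p ρbar h2 j f * ρbar.ρ σ⁻¹) := by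
  obtain ⟨X, rfl⟩ := (tracePairEquiv p ρbar h2 j).surjective f
  have h1 : traceE p ρbar h2 j (show dualTw p M from tracePairEquiv p ρbar h2 j X) = X :=
    traceE_tracePair p ρbar h2 j X
  have h3 : (tracePairEquiv p ρbar h2 j X : Module.Dual (ZMod p) M) = tracePair p ρbar j X := rfl
  rw [h1, h3, dualTw_ρ_tracePair p ρbar j hj, hdet]
  set c := algebraMap (ZMod p) k ((cycloChar p σ : (ZMod p)ˣ) : ZMod p) with hc
  have h4 := traceE_tracePair p ρbar h2 j (c • ad0Repn ρbar σ X)
  rw [Submodule.coe_smul, coe_ad0Repn_apply] at h4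
  exact h4

omit [Finite k] in
/-- `det ρbar` is the mod `p` cyclotomic character. -/
theorem det_eq_algebraMap_cycloChar
    (hdet : (GaloisRepAdic.ofResidualGaloisRep ρbar).DetIsCyclotomic p) (σ : GQ) :
    LinearMap.det (ρbar.ρ σ) = algebraMap (ZMod p) k ((cycloChar p σ : (ZMod p)ˣ) : ZMod p) := by
  have hp0 : ((p : ℕ) : k) = 0 := by
    rw [← map_natCast (algebraMap (ZMod p) k), ZMod.natCast_self, map_zero]
  have h := hdet.2 1 σ ((cycloChar p σ : (ZMod p)ˣ) : ZMod p).val (fun μ hμ => by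
    rw [pow_one] at hμ
    exact Fermat.Agent.Res.cycloChar_spec p σ hμ)
  rw [pow_one, hp0, Ideal.span_singleton_eq_bot.mpr rfl, Ideal.mem_bot, sub_eq_zero] at h
  rw [← ZMod.natCast_zmod_val ((cycloChar p σ : (ZMod p)ˣ) : ZMod p), map_natCast]
  exact h

omit [Finite k] in
/-- `2 ≠ 0` in an `𝔽_p`-algebra which is a field, `p` odd. -/
theorem two_ne_zero_of_ne_two (hp2 : p ≠ 2) : (2 : k) ≠ 0 := by
  intro h0
  have h1 : algebraMap (ZMod p) k ((2 : ℕ) : ZMod p) = 0 := by
    rw [map_natCast]; exact_mod_cast h0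
  rw [map_eq_zero, ZMod.natCast_eq_zero_iff] at h1
  exact hp2 ((Nat.prime_dvd_prime_iff_eq Fact.out Nat.prime_two).mp h1)

/-- **The data of an `AdjointModel ρbar (dualTw p M)`**, for any `𝔽_p`-model `M` of `ad⁰ ρbar`
(`p` odd, `det ρbar` cyclotomic): an injective additive `e : Mstar → End_k V` with image the
traceless endomorphisms and `e (σ m) = det (ρbar σ) • (ρbar σ * e m * ρbar σ⁻¹)`. -/
theorem exists_adjointModel_data (hp2 : p ≠ 2)
    (hdet : (GaloisRepAdic.ofResidualGaloisRep ρbar).DetIsCyclotomic p) (j : M ≃+ sl ρbar)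
    (hj : ∀ (σ : GQ) (m : M),
      (j (M.ρ σ m) : Module.End k ρbar.V) = ρbar.ρ σ * (j m : Module.End k ρbar.V) * ρbar.ρ σ⁻¹) :
    ∃ e : (dualTw p M) →+ Module.End k ρbar.V, Function.Injective e ∧ (∀ m, tr (e m) = 0) ∧
      (∀ w : Module.End k ρbar.V, tr w = 0 → ∃ m, e m = w) ∧
      ∀ (σ : GQ) (m : dualTw p M),
        e ((dualTw p M).ρ σ m) = LinearMap.det (ρbar.ρ σ) • (ρbar.ρ σ * e m * ρbar.ρ σ⁻¹) :=
  have h2 := two_ne_zero_of_ne_two p (k := k) hp2
  ⟨traceE p ρbar h2 j, traceE_injective p ρbar h2 j, trace_traceE p ρbar h2 j,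
    traceE_surj p ρbar h2 j,
    traceE_equiv p ρbar h2 j hj (det_eq_algebraMap_cycloChar p ρbar hdet)⟩

end Pair

end Fermat.Agent.TW.TraceDual
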