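import Fermat.Agent.TW.Sel.TraceDual
import Fermat.Agent.TW.Cheb.GalDetect

/-!
# PROGRAM G (S56): the trace-form `AdjointModel` of block TW

`adjointModel` : for `p` odd, `k` a finite field of characteristic `p`, `det ρbar` cyclotomic and
any `𝔽_p`-model `M` of `ad⁰ ρbar` (`j : M ≃+ sl ρbar` equivariant), the Tate-twisted `𝔽_p`-dual
`dualTw p M` is an `AdjointModel ρbar` (block TW, `TW/Cheb/GalDetect.lean`), through the trace form
`(X, Y) ↦ Tr_{k/𝔽_p} (tr (X Y))`.

`exists_detecting_dualTw` : the detecting element of `Gal(ℚ̄ / ℚ(ζ_{p^{n+1}}))` for a `1`-cocycle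
with values in `dualTw p M` which is not a coboundary.
-/

set_option autoImplicit false

open Fermat.Agent.TW.Ad0 Fermat.Agent.CFT.PT ExtCitation Fermat.Agent.TW.Cheb groupCohomology

namespace Fermat.Agent.TW.TraceDual

local notation "GQ" => (AlgebraicClosure ℚ ≃ₐ[ℚ] AlgebraicClosure ℚ)

variable (p : ℕ) [Fact p.Prime] {k : Type} [Field k] [Finite k] [Algebra (ZMod p) k]
  (ρbar : ResidualGaloisRep k) {M : Rep.{0} (ZMod p) GQ}

/-- **The trace-form `AdjointModel`** on `dualTw p M`. -/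
noncomputable def adjointModel (hp2 : p ≠ 2)
    (hdet : (GaloisRepAdic.ofResidualGaloisRep ρbar).DetIsCyclotomic p) (j : M ≃+ sl ρbar)
    (hj : ∀ (σ : GQ) (m : M),
      (j (M.ρ σ m) : Module.End k ρbar.V) = ρbar.ρ σ * (j m : Module.End k ρbar.V) * ρbar.ρ σ⁻¹) :
    AdjointModel ρbar (dualTw p M) where
  e := traceE p ρbar (two_ne_zero_of_ne_two p hp2) j
  inj := traceE_injective p ρbar _ j
  trace_eq := trace_traceE p ρbar _ j
  surj := traceE_surj p ρbar _ j
  equiv := traceE_equiv p ρbar _ j hj (det_eq_algebraMap_cycloChar p ρbar hdet)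

theorem adjointModel_e_tracePair (hp2 : p ≠ 2)
    (hdet : (GaloisRepAdic.ofResidualGaloisRep ρbar).DetIsCyclotomic p) (j : M ≃+ sl ρbar)
    (hj : ∀ (σ : GQ) (m : M),
      (j (M.ρ σ m) : Module.End k ρbar.V) = ρbar.ρ σ * (j m : Module.End k ρbar.V) * ρbar.ρ σ⁻¹)
    (X : sl ρbar) :
    (adjointModel p ρbar hp2 hdet j hj).e (show dualTw p M from tracePair p ρbar j X) = X :=
  traceE_tracePair p ρbar _ j X

/-- The pairing of `m : M` with `f : dualTw p M` through the comparison map: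
`f m = Tr_{k/𝔽_p} (tr (e f ∘ j m))`. -/
theorem apply_eq_trace_adjointModel_e (hp2 : p ≠ 2)
    (hdet : (GaloisRepAdic.ofResidualGaloisRep ρbar).DetIsCyclotomic p) (j : M ≃+ sl ρbar)
    (hj : ∀ (σ : GQ) (m : M),
      (j (M.ρ σ m) : Module.End k ρbar.V) = ρbar.ρ σ * (j m : Module.End k ρbar.V) * ρbar.ρ σ⁻¹)
    (f : Module.Dual (ZMod p) M) (m : M) :
    f m = Algebra.trace (ZMod p) k (LinearMap.trace k ρbar.V
      ((adjointModel p ρbar hp2 hdet j hj).e (show dualTw p M from f) *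
        (j m : Module.End k ρbar.V))) := by
  obtain ⟨X, rfl⟩ := (tracePairEquiv p ρbar (two_ne_zero_of_ne_two p hp2) j).surjective f
  have h1 := adjointModel_e_tracePair p ρbar hp2 hdet j hj X
  have h3 : (tracePairEquiv p ρbar (two_ne_zero_of_ne_two p hp2) j X : Module.Dual (ZMod p) M) =
      tracePair p ρbar j X := rfl
  rw [h3, h1, tracePair_apply]

/-- **The detecting element** for cocycles with values in `dualTw p M`. -/
theorem exists_detecting_dualTw (hp2 : p ≠ 2) (habs : ρbar.IsAbsolutelyIrreducible)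
    (hdet : (GaloisRepAdic.ofResidualGaloisRep ρbar).DetIsCyclotomic p) (hTW : HTW ρbar)
    (j : M ≃+ sl ρbar)
    (hj : ∀ (σ : GQ) (m : M),
      (j (M.ρ σ m) : Module.End k ρbar.V) = ρbar.ρ σ * (j m : Module.End k ρbar.V) * ρbar.ρ σ⁻¹)
    {c₀ : GQ → dualTw p M} (hc₀ : c₀ ∈ cocycles₁ (dualTw p M))
    (hnc : c₀ ∉ coboundaries₁ (dualTw p M)) (n : ℕ) :
    ∃ τ ∈ cycloKer p n, disc (ρbar.ρ τ) ≠ 0 ∧
      LinearMap.trace k ρbar.V ((adjointModel p ρbar hp2 hdet j hj).e (c₀ τ) * ρbar.ρ τ) ≠ 0 :=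
  exists_detecting_galois (adjointModel p ρbar hp2 hdet j hj) p hp2 habs hdet hTW hc₀ hnc n

end Fermat.Agent.TW.TraceDual
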